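/- (verbatim copy of S43/T2/Chain.lean, helper210, under the namespace LiftP.Cnt: protects the assembly LiftP from renamings)
Row 37 (S43), block T2 (helper210).  LEMMA S: counting along the chain `L + f^i M`.

`M` a finite abelian group, `f` an endomorphism, `L` an `f`-stable subgroup containing `f^m M`.
Then `[M : L] ≤ [M : L + f M] ^ m`, with equality if `f^(m-1) x ∈ L → x ∈ L + f M`.
Mathlib only.
-/
import Mathlib

set_option autoImplicit false

namespace Fermat.Agent.S43.LiftP.Cnt

variable {M : Type*} [AddCommGroup M]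

/-- `[M : L] = [M : L + f M] * [M : f⁻¹ L]`. -/
theorem index_eq_mul_comap (f : M →+ M) (L : AddSubgroup M) :
    L.index = (L ⊔ f.range).index * (L.comap f).index := by
  rw [AddSubgroup.index_comap, ← AddSubgroup.relIndex_sup_left f.range L, mul_comm]
  exact (AddSubgroup.relIndex_mul_index le_sup_left).symm

theorem index_le_of_le [Finite M] {H K : AddSubgroup M} (h : H ≤ K) : K.index ≤ H.index :=
  Nat.le_of_dvd (Nat.pos_of_ne_zero AddSubgroup.index_ne_zero_of_finite)
    (AddSubgroup.index_dvd_of_le h)

/-- **Lemma S (a)**. -/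
theorem index_le_pow [Finite M] (f : M →+ M) (m : ℕ) :
    ∀ L : AddSubgroup M, (∀ x ∈ L, f x ∈ L) → (∀ x, (f^[m]) x ∈ L) →
      L.index ≤ (L ⊔ f.range).index ^ m := by
  induction m with
  | zero =>
    intro L _ h
    have : L = ⊤ := by
      rw [eq_top_iff]; intro x _; exact h x
    rw [this]; simp
  | succ m ih =>
    intro L hst h
    have hst' : ∀ x ∈ L.comap f, f x ∈ L.comap f := fun x hx => hst _ hx
    have h' : ∀ x, (f^[m]) x ∈ L.comap f := by
      intro x
      show f ((f^[m]) x) ∈ L
      rw [← Function.iterate_succ_apply' f m x]; exact h x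
    have hle : L ≤ L.comap f := fun x hx => hst x hx
    have h1 := ih (L.comap f) hst' h'
    have h2 : (L.comap f ⊔ f.range).index ≤ (L ⊔ f.range).index :=
      index_le_of_le (sup_le_sup_right hle _)
    rw [index_eq_mul_comap f L, pow_succ, mul_comm]
    exact Nat.mul_le_mul (h1.trans (Nat.pow_le_pow_left h2 m)) le_rfl

theorem iterate_mem {f : M →+ M} {L : AddSubgroup M} (hst : ∀ x ∈ L, f x ∈ L) (m : ℕ) {x : M}
    (hx : x ∈ L) : (f^[m]) x ∈ L := by
  induction m with
  | zero => exact hx
  | succ m ih => rw [Function.iterate_succ_apply']; exact hst _ ih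

/-- **Lemma S (b)**. -/
theorem index_eq_pow (f : M →+ M) (m : ℕ) :
    ∀ L : AddSubgroup M, (∀ x ∈ L, f x ∈ L) → (∀ x, (f^[m + 1]) x ∈ L) →
      (∀ x, (f^[m]) x ∈ L → x ∈ L ⊔ f.range) →
      L.index = (L ⊔ f.range).index ^ (m + 1) := by
  induction m with
  | zero =>
    intro L _ h _
    have : L.comap f = ⊤ := by
      rw [eq_top_iff]; intro x _; exact h x
    rw [index_eq_mul_comap f L, this]; simp
  | succ m ih =>
    intro L hst h hinj
    have hst' : ∀ x ∈ L.comap f, f x ∈ L.comap f := fun x hx => hst _ hx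
    have h' : ∀ x, (f^[m + 1]) x ∈ L.comap f := by
      intro x
      show f ((f^[m + 1]) x) ∈ L
      rw [← Function.iterate_succ_apply' f (m + 1) x]; exact h x
    have hle : L ≤ L.comap f := fun x hx => hst x hx
    have hle' : L.comap f ≤ L ⊔ f.range := by
      intro x hx
      apply hinj
      rw [Function.iterate_succ_apply]
      exact iterate_mem hst m hx
    have hsup : L.comap f ⊔ f.range = L ⊔ f.range :=
      le_antisymm (sup_le hle' le_sup_right) (sup_le_sup_right hle _)
    have hinj' : ∀ x, (f^[m]) x ∈ L.comap f → x ∈ L.comap f ⊔ f.range := by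
      intro x hx
      rw [hsup]
      apply hinj
      rw [Function.iterate_succ_apply']; exact hx
    have h1 := ih (L.comap f) hst' h' hinj'
    rw [index_eq_mul_comap f L, h1, hsup, pow_succ _ (m + 1), mul_comm]

end Fermat.Agent.S43.LiftP.Cnt
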