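/- (verbatim copy of S43/T2/TwoStage.lean, helper210, under the namespace LiftP.Cnt: protects the assembly LiftP from renamings)
Row 37 (S43), block T2 (helper210).  Two-stage counting: `f = p` then `f = T = δ - 1`.
`W` a finite abelian group killed by `p ^ k`, `δ` an endomorphism with `δ ^ P = 1`, `P = p ^ e`.
Mathlib only.
-/
import Fermat.Agent.S43.LiftP.Cnt.Chain
import Fermat.Agent.S43.LiftP.Cnt.Poly

set_option autoImplicit false

namespace Fermat.Agent.S43.LiftP.Cnt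

variable {W : Type*} [AddCommGroup W]

theorem iterate_nsmul (p m : ℕ) (x : W) : ((nsmulAddMonoidHom p : W →+ W)^[m]) x = p ^ m • x := by
  induction m with
  | zero => simp
  | succ m ih =>
    rw [Function.iterate_succ_apply', ih, nsmulAddMonoidHom_apply, ← mul_smul, pow_succ, mul_comm]

/-- `p W` -/
abbrev pS (p : ℕ) (W : Type*) [AddCommGroup W] : AddSubgroup W :=
  (nsmulAddMonoidHom p : W →+ W).range

theorem mem_pS {p : ℕ} {x : W} : x ∈ pS p W ↔ ∃ y, x = p • y := by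
  constructor
  · rintro ⟨y, rfl⟩; exact ⟨y, rfl⟩
  · rintro ⟨y, rfl⟩; exact ⟨y, rfl⟩

theorem iterate_nsmul_comm (T : W →+ W) (j n : ℕ) (x : W) : (T^[j]) (n • x) = n • (T^[j]) x := by
  induction j with
  | zero => rfl
  | succ j ih => rw [Function.iterate_succ_apply', ih, map_nsmul, Function.iterate_succ_apply']

theorem iterate_add' (T : W →+ W) (j : ℕ) (x y : W) : (T^[j]) (x + y) = (T^[j]) x + (T^[j]) y := by
  induction j with
  | zero => rfl
  | succ j ih => rw [Function.iterate_succ_apply', ih, map_add, Function.iterate_succ_apply',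
      Function.iterate_succ_apply']

section

variable (p k e : ℕ) [Fact p.Prime] (δ : AddMonoid.End W) (hδ : δ ^ (p ^ e) = 1)

/-- `T = δ - 1` as an additive map -/
abbrev Tm (δ : AddMonoid.End W) : W →+ W := (δ - 1 : AddMonoid.End W)

theorem Tm_apply (x : W) : Tm δ x = δ x - x := rfl

include hδ in
theorem iterate_T_mem_pS (x : W) : ((Tm δ)^[p ^ e]) x ∈ pS p W := by
  obtain ⟨R, hR⟩ := exists_pow_eq (A := AddMonoid.End W) p e (δ - 1) (by rw [add_sub_cancel]; exact hδ)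
  rw [mem_pS]
  refine ⟨R x, ?_⟩
  have := congrArg (fun g : AddMonoid.End W => g x) hR
  simp only [AddMonoid.End.coe_pow] at this
  exact this

theorem nm_apply (x : W) : ∃ y : W, (∑ j ∈ Finset.range (p ^ e), (δ ^ j) x) =
    ((Tm δ)^[p ^ e - 1]) x + p • y := by
  obtain ⟨R, hR⟩ := exists_nm_eq (A := AddMonoid.End W) p e (δ - 1)
  rw [add_sub_cancel] at hR
  refine ⟨R x, ?_⟩
  have := congrArg (fun g : AddMonoid.End W => g x) hR
  have h2 : ((δ - 1) ^ (p ^ e - 1) + p • R : AddMonoid.End W) x =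
      ((Tm δ)^[p ^ e - 1]) x + p • R x := by
    have := AddMonoid.End.coe_pow W (δ - 1) (p ^ e - 1)
    show ((δ - 1) ^ (p ^ e - 1) : AddMonoid.End W) x + p • R x = _
    rw [this]
    rfl
  rw [← h2]
  refine Eq.trans ?_ this
  exact (AddMonoidHom.finsetSum_apply (fun j => (δ ^ j : W →+ W)) (Finset.range (p ^ e)) x).symm

include hδ in
/-- **upper bound** -/
theorem card_le [Finite W] (hW : ∀ x : W, p ^ k • x = 0) :
    Nat.card W ≤ (pS p W ⊔ (Tm δ).range).index ^ (p ^ e * k) := by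
  have h1 := index_le_pow (nsmulAddMonoidHom p : W →+ W) k ⊥ (by
      intro x hx; rw [AddSubgroup.mem_bot] at hx ⊢; rw [hx, map_zero]) (by
      intro x; rw [iterate_nsmul, hW, AddSubgroup.mem_bot])
  rw [AddSubgroup.index_bot, bot_sup_eq] at h1
  have h2 := index_le_pow (Tm δ) (p ^ e) (pS p W) (by
      intro x hx
      obtain ⟨y, rfl⟩ := mem_pS.mp hx
      exact mem_pS.mpr ⟨Tm δ y, map_nsmul _ _ _⟩) (iterate_T_mem_pS p e δ hδ)
  rw [pow_mul]
  exact h1.trans (Nat.pow_le_pow_left h2 k)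

include hδ in
/-- **exact index** of a `δ`-stable subgroup `K` such that
`p^(k-1) T^(P-1) x ∈ K → x ∈ K + pW + TW`. -/
theorem index_eq (hk : 0 < k) (hW : ∀ x : W, p ^ k • x = 0) (K : AddSubgroup W)
    (hK : ∀ x ∈ K, Tm δ x ∈ K)
    (H : ∀ x, p ^ (k - 1) • ((Tm δ)^[p ^ e - 1]) x ∈ K → x ∈ K ⊔ pS p W ⊔ (Tm δ).range) :
    K.index = (K ⊔ pS p W ⊔ (Tm δ).range).index ^ (p ^ e * k) := by
  have hP : 0 < p ^ e := pow_pos (Fact.out : p.Prime).pos e
  have hpk : p ^ (k - 1) * p = p ^ k := by rw [← pow_succ, Nat.sub_add_cancel hk]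
  have hKp : ∀ (n : ℕ), ∀ x ∈ K, n • x ∈ K := fun n x hx => K.nsmul_mem hx n
  -- stage T
  have hstT : ∀ x ∈ K ⊔ pS p W, Tm δ x ∈ K ⊔ pS p W := by
    intro x hx
    obtain ⟨a, ha, b, hb, rfl⟩ := AddSubgroup.mem_sup.mp hx
    obtain ⟨y, rfl⟩ := mem_pS.mp hb
    rw [map_add]
    exact AddSubgroup.add_mem _ (AddSubgroup.mem_sup_left (hK a ha))
      (AddSubgroup.mem_sup_right (mem_pS.mpr ⟨Tm δ y, map_nsmul _ _ _⟩))
  have hT2 : ∀ x, ((Tm δ)^[p ^ e - 1]) x ∈ K ⊔ pS p W → x ∈ K ⊔ pS p W ⊔ (Tm δ).range := by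
    intro x hx
    apply H
    obtain ⟨a, ha, b, hb, hab⟩ := AddSubgroup.mem_sup.mp hx
    obtain ⟨y, rfl⟩ := mem_pS.mp hb
    rw [← hab, smul_add, ← mul_smul, hpk, hW, add_zero]
    exact hKp _ a ha
  have e2 := index_eq_pow (Tm δ) (p ^ e - 1) (K ⊔ pS p W) hstT (by
      intro x
      rw [Nat.sub_add_cancel hP]
      exact AddSubgroup.mem_sup_right (iterate_T_mem_pS p e δ hδ x)) hT2
  rw [Nat.sub_add_cancel hP] at e2
  -- stage p
  have key : ∀ j, j ≤ p ^ e → ∀ x, p ^ (k - 1) • x ∈ K →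
      ∃ a ∈ K, ∃ y z : W, x = a + p • y + ((Tm δ)^[j]) z := by
    intro j
    induction j with
    | zero => intro _ x _; exact ⟨0, K.zero_mem, 0, x, by simp⟩
    | succ j ih =>
      intro hj x hx
      obtain ⟨a, ha, y, z, rfl⟩ := ih (Nat.le_of_succ_le hj) x hx
      have h1 : p ^ (k - 1) • ((Tm δ)^[j]) z ∈ K := by
        have : p ^ (k - 1) • ((Tm δ)^[j]) z =
            p ^ (k - 1) • (a + p • y + ((Tm δ)^[j]) z) - p ^ (k - 1) • a := by
          rw [smul_add, smul_add, ← mul_smul, hpk, hW]; abel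
        rw [this]
        exact K.sub_mem hx (hKp _ a ha)
      have h2 : p ^ (k - 1) • ((Tm δ)^[p ^ e - 1]) z ∈ K := by
        have : p ^ e - 1 = (p ^ e - 1 - j) + j := by omega
        rw [this, Function.iterate_add_apply, ← iterate_nsmul_comm]
        exact iterate_mem hK _ h1
      have h3 := H z h2
      obtain ⟨c, hc, d, hd, hcd⟩ := AddSubgroup.mem_sup.mp h3
      obtain ⟨a', ha', b', hb', rfl⟩ := AddSubgroup.mem_sup.mp hc
      obtain ⟨y', rfl⟩ := mem_pS.mp hb'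
      obtain ⟨z', rfl⟩ := hd
      refine ⟨a + ((Tm δ)^[j]) a', K.add_mem ha (iterate_mem hK j ha'),
        y + ((Tm δ)^[j]) y', z', ?_⟩
      rw [← hcd, iterate_add', iterate_add', iterate_nsmul_comm, Function.iterate_succ_apply,
        smul_add]
      abel
  have hp2 : ∀ x, ((nsmulAddMonoidHom p : W →+ W)^[k - 1]) x ∈ K → x ∈ K ⊔ pS p W := by
    intro x hx
    rw [iterate_nsmul] at hx
    obtain ⟨a, ha, y, z, rfl⟩ := key (p ^ e) le_rfl x hx
    obtain ⟨w, hw⟩ := mem_pS.mp (iterate_T_mem_pS p e δ hδ z)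
    rw [hw, add_assoc, ← smul_add]
    exact AddSubgroup.add_mem _ (AddSubgroup.mem_sup_left ha)
      (AddSubgroup.mem_sup_right (mem_pS.mpr ⟨_, rfl⟩))
  have e1 := index_eq_pow (nsmulAddMonoidHom p : W →+ W) (k - 1) K (fun x hx => hKp p x hx) (by
      intro x
      rw [Nat.sub_add_cancel hk, iterate_nsmul, hW]; exact K.zero_mem) hp2
  rw [Nat.sub_add_cancel hk] at e1
  rw [e1, e2, pow_mul]

end

end Fermat.Agent.S43.LiftP.Cnt
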