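/- (verbatim copy of S43/T2/Abs.lean, helper210, under the namespace LiftP.Cnt: protects the assembly LiftP from renamings)
Row 37 (S43), block T2 (helper210).  THE ABSTRACT COUNTING THEOREM (report #1647).

`W = W_H(n)_m`, `W₀ = W_0(n)_m`, `n = p ^ k`, `δ` = generator of `Δ` (order dividing `P = p ^ e`),
`a = Σ - 1`, `b = Σ - δ = a - T`, `N₀ = Σ - 1` on `W₀`, `pr = π_*`, `inc = π^*`,
`K = K_∞`, `K' = K_0`.  Then `K ∩ K' = inc (ker N₀)`: the diamonds act trivially on the "toric part"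
at level `H`.  No geometry at level `H`.   Mathlib only.
-/
import Fermat.Agent.S43.LiftP.Cnt.TwoStage

set_option autoImplicit false
set_option linter.unusedSectionVars false

namespace Fermat.Agent.S43.LiftP.Cnt

/-- `[G : K ⊓ K'] [G : K ⊔ K'] = [G : K] [G : K']`. -/
theorem index_inf_mul_index_sup {G : Type*} [AddCommGroup G] (K K' : AddSubgroup G) :
    (K ⊓ K').index * (K ⊔ K').index = K.index * K'.index := by
  rw [← AddSubgroup.relIndex_mul_index (inf_le_left : K ⊓ K' ≤ K), AddSubgroup.inf_relIndex_left,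
    ← AddSubgroup.relIndex_mul_index (le_sup_right : K' ≤ K ⊔ K'),
    AddSubgroup.relIndex_sup_right K K']
  ring

/-- The data of the counting theorem. -/
structure Data (p k e : ℕ) (W W₀ : Type*) [AddCommGroup W] [AddCommGroup W₀] where
  hk : 0 < k
  hW : ∀ x : W, p ^ k • x = 0
  δ : AddMonoid.End W
  a : W →+ W
  N₀ : W₀ →+ W₀
  pr : W →+ W₀
  inc : W₀ →+ W
  hδ : δ ^ (p ^ e) = 1
  /-- FREE -/
  pr_surj : Function.Surjective pr
  pr_δ : ∀ x, pr (δ x) = pr x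
  ker_pr : ∀ x, pr x = 0 → ∃ y, x = δ y - y
  inc_inj : Function.Injective inc
  δ_inc : ∀ y, δ (inc y) = inc y
  inc_pr : ∀ x, inc (pr x) = ∑ j ∈ Finset.range (p ^ e), (δ ^ j) x
  /-- compatibility of `Σ - 1` -/
  pr_a : ∀ x, pr (a x) = N₀ (pr x)
  a_inc : ∀ y, a (inc y) = inc (N₀ y)
  /-- (E) at level `Γ₀` -/
  hE : ∀ y, N₀ y = 0 ↔ ∃ z, y = N₀ z
  hpure : ∀ y, N₀ (p ^ (k - 1) • y) = 0 → ∃ z z', y = N₀ z + p • z'
  /-- the two subgroups -/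
  K : AddSubgroup W
  K' : AddSubgroup W
  K_δ : ∀ x ∈ K, δ x ∈ K
  K'_δ : ∀ x ∈ K', δ x ∈ K'
  aK : ∀ x, a x ∈ K
  bK' : ∀ x, a x - (δ x - x) ∈ K'
  prK : ∀ x ∈ K, N₀ (pr x) = 0
  prK' : ∀ x ∈ K', N₀ (pr x) = 0
  /-- (γ) -/
  γ : ∀ y, inc y ∈ K → N₀ y = 0
  γ' : ∀ y, inc y ∈ K' → N₀ y = 0

namespace Data

variable {p k e : ℕ} [Fact p.Prime] {W W₀ : Type*} [AddCommGroup W] [AddCommGroup W₀]
  (D : Data p k e W W₀)

/-- `Y₀ + p W₀` -/
def Y1 : AddSubgroup W₀ := D.N₀.ker ⊔ pS p W₀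

theorem range_eq_ker : D.N₀.range = D.N₀.ker := by
  ext y
  rw [AddMonoidHom.mem_ker, D.hE y]
  constructor
  · rintro ⟨z, rfl⟩; exact ⟨z, rfl⟩
  · rintro ⟨z, rfl⟩; exact ⟨z, rfl⟩

theorem N₀_N₀ (y : W₀) : D.N₀ (D.N₀ y) = 0 := (D.hE _).mpr ⟨y, rfl⟩

theorem pr_T (x : W) : D.pr (Tm D.δ x) = 0 := by
  rw [Tm_apply, map_sub, D.pr_δ, sub_self]

/-- general criterion: the hypothesis of `index_eq` for a subgroup satisfying (γ). -/
theorem crit (L : AddSubgroup W) (haL : ∀ y : W₀, D.N₀ y = 0 → ∃ x ∈ L, D.pr x = y)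
    (γL : ∀ y, D.inc y ∈ L → D.N₀ y = 0) (x : W)
    (hx : p ^ (k - 1) • ((Tm D.δ)^[p ^ e - 1]) x ∈ L) : x ∈ L ⊔ pS p W ⊔ (Tm D.δ).range := by
  have hpk : p ^ (k - 1) * p = p ^ k := by rw [← pow_succ, Nat.sub_add_cancel D.hk]
  obtain ⟨y, hy⟩ := nm_apply p e D.δ x
  have h1 : D.inc (p ^ (k - 1) • D.pr x) = p ^ (k - 1) • ((Tm D.δ)^[p ^ e - 1]) x := by
    rw [map_nsmul, D.inc_pr, hy, smul_add, ← mul_smul, hpk, D.hW, add_zero]
  have h2 := γL _ (h1 ▸ hx)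
  obtain ⟨z, z', hz⟩ := D.hpure _ h2
  obtain ⟨x1, hx1, hx1'⟩ := haL (D.N₀ z) (D.N₀_N₀ z)
  obtain ⟨w', rfl⟩ := D.pr_surj z'
  have h3 : D.pr (x - x1 - p • w') = 0 := by
    rw [map_sub, map_sub, hx1', map_nsmul, hz]; abel
  obtain ⟨t, ht⟩ := D.ker_pr _ h3
  have : x = x1 + p • w' + Tm D.δ t := by
    rw [Tm_apply, ← ht]; abel
  rw [this]
  exact AddSubgroup.add_mem _ (AddSubgroup.mem_sup_left (AddSubgroup.add_mem _
    (AddSubgroup.mem_sup_left hx1) (AddSubgroup.mem_sup_right (mem_pS.mpr ⟨_, rfl⟩))))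
    (AddSubgroup.mem_sup_right ⟨t, rfl⟩)

theorem liftK (y : W₀) (hy : D.N₀ y = 0) : ∃ x ∈ D.K, D.pr x = y := by
  obtain ⟨z, rfl⟩ := (D.hE y).mp hy
  obtain ⟨w, rfl⟩ := D.pr_surj z
  exact ⟨D.a w, D.aK w, D.pr_a w⟩

theorem liftK' (y : W₀) (hy : D.N₀ y = 0) : ∃ x ∈ D.K', D.pr x = y := by
  obtain ⟨z, rfl⟩ := (D.hE y).mp hy
  obtain ⟨w, rfl⟩ := D.pr_surj z
  refine ⟨_, D.bK' w, ?_⟩
  rw [map_sub, D.pr_a, map_sub, D.pr_δ, sub_self, sub_zero]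

theorem T_mem {L : AddSubgroup W} (h : ∀ x ∈ L, D.δ x ∈ L) : ∀ x ∈ L, Tm D.δ x ∈ L :=
  fun x hx => by rw [Tm_apply]; exact L.sub_mem (h x hx) hx

/-- lower bound for the index of a subgroup `L` with `pr L ≤ Y₀`. -/
theorem le_index_sup [Finite W] [Finite W₀] (L : AddSubgroup W) (hL : ∀ x ∈ L, D.N₀ (D.pr x) = 0) :
    D.Y1.index ≤ (L ⊔ pS p W ⊔ (Tm D.δ).range).index := by
  rw [← AddSubgroup.index_comap_of_surjective D.Y1 D.pr_surj]
  apply index_le_of_le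
  refine sup_le (sup_le ?_ ?_) ?_
  · intro x hx
    exact AddSubgroup.mem_sup_left (hL x hx)
  · intro x hx
    obtain ⟨y, rfl⟩ := mem_pS.mp hx
    exact AddSubgroup.mem_sup_right (mem_pS.mpr ⟨D.pr y, map_nsmul _ _ _⟩)
  · rintro _ ⟨t, rfl⟩
    show D.pr _ ∈ D.Y1
    rw [D.pr_T]; exact AddSubgroup.zero_mem _

theorem index_pT_le [Finite W] [Finite W₀] :
    (pS p W ⊔ (Tm D.δ).range).index ≤ D.Y1.index * D.Y1.index := by
  -- `[W : pW + TW] ≤ [W₀ : pW₀]`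
  have h1 : (pS p W ⊔ (Tm D.δ).range).index ≤ (pS p W₀).index := by
    rw [← AddSubgroup.index_comap_of_surjective (pS p W₀) D.pr_surj]
    apply index_le_of_le
    intro x hx
    obtain ⟨y, hy⟩ := mem_pS.mp (show D.pr x ∈ pS p W₀ from hx)
    obtain ⟨w, rfl⟩ := D.pr_surj y
    have h3 : D.pr (x - p • w) = 0 := by rw [map_sub, hy, map_nsmul, sub_self]
    obtain ⟨t, ht⟩ := D.ker_pr _ h3
    have : x = p • w + Tm D.δ t := by rw [Tm_apply, ← ht]; abel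
    rw [this]
    exact AddSubgroup.add_mem _ (AddSubgroup.mem_sup_left (mem_pS.mpr ⟨_, rfl⟩))
      (AddSubgroup.mem_sup_right ⟨t, rfl⟩)
  -- `[W₀ : pW₀] = [W₀ : Y1] [Y1 : pW₀]`
  have h2 : (pS p W₀).index = (pS p W₀).relIndex D.Y1 * D.Y1.index :=
    (AddSubgroup.relIndex_mul_index (le_sup_right : pS p W₀ ≤ D.Y1)).symm
  have h3 : (pS p W₀).relIndex D.Y1 ≤ D.Y1.index := by
    unfold Y1
    rw [AddSubgroup.relIndex_sup_right, ← D.range_eq_ker, ← AddSubgroup.index_comap]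
    rw [D.range_eq_ker]
    apply index_le_of_le
    refine sup_le ?_ ?_
    · intro y hy
      show D.N₀ y ∈ pS p W₀
      rw [AddMonoidHom.mem_ker.mp hy]; exact AddSubgroup.zero_mem _
    · intro y hy
      obtain ⟨z, rfl⟩ := mem_pS.mp hy
      exact mem_pS.mpr ⟨D.N₀ z, map_nsmul _ _ _⟩
  rw [h2] at h1
  exact h1.trans (Nat.mul_le_mul_right _ h3)

theorem index_sup_le [Finite W] [Finite W₀] : (D.K ⊔ D.K').index ≤ Nat.card D.N₀.ker := by
  have h0 : D.N₀.ker.index = Nat.card D.N₀.ker := by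
    rw [AddSubgroup.index_ker, D.range_eq_ker]
  rw [← h0, ← AddSubgroup.index_comap_of_surjective D.N₀.ker D.pr_surj]
  apply index_le_of_le
  intro x hx
  obtain ⟨x1, hx1, hx1'⟩ := D.liftK (D.pr x) hx
  have h3 : D.pr (x - x1) = 0 := by rw [map_sub, hx1', sub_self]
  obtain ⟨t, ht⟩ := D.ker_pr _ h3
  have : x = (x1 + D.a t) + - (D.a t - (D.δ t - t)) := by rw [← ht]; abel
  rw [this]
  exact AddSubgroup.add_mem _ (AddSubgroup.mem_sup_left (D.K.add_mem hx1 (D.aK t)))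
    (AddSubgroup.mem_sup_right (D.K'.neg_mem (D.bK' t)))

theorem map_inc_le : D.N₀.ker.map D.inc ≤ D.K ⊓ D.K' := by
  rintro _ ⟨y, hy, rfl⟩
  obtain ⟨z, rfl⟩ := (D.hE y).mp hy
  refine ⟨?_, ?_⟩
  · rw [← D.a_inc]; exact D.aK _
  · have := D.bK' (D.inc z)
    rwa [D.δ_inc, sub_self, sub_zero, D.a_inc] at this

/-- **(T2), abstract form**: `K ∩ K' = inc (ker N₀)`. -/
theorem inf_eq [Finite W] [Finite W₀] : D.N₀.ker.map D.inc = D.K ⊓ D.K' := by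
  apply AddSubgroup.eq_of_le_of_card_ge D.map_inc_le
  rw [← Nat.card_congr (D.N₀.ker.equivMapOfInjective D.inc D.inc_inj).toEquiv]
  set c := D.Y1.index with hc
  have hc0 : 0 < c := Nat.pos_of_ne_zero AddSubgroup.index_ne_zero_of_finite
  set m := p ^ e * k with hm
  have hK : c ^ m ≤ D.K.index := by
    rw [index_eq p k e D.δ D.hδ D.hk D.hW D.K (D.T_mem D.K_δ) (D.crit D.K D.liftK D.γ)]
    exact Nat.pow_le_pow_left (D.le_index_sup D.K D.prK) _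
  have hK' : c ^ m ≤ D.K'.index := by
    rw [index_eq p k e D.δ D.hδ D.hk D.hW D.K' (D.T_mem D.K'_δ) (D.crit D.K' D.liftK' D.γ')]
    exact Nat.pow_le_pow_left (D.le_index_sup D.K' D.prK') _
  have hW : Nat.card W ≤ c ^ m * c ^ m := by
    rw [← mul_pow]
    exact (card_le p k e D.δ D.hδ D.hW).trans (Nat.pow_le_pow_left D.index_pT_le _)
  have h1 : Nat.card (D.K ⊓ D.K' : AddSubgroup W) * (D.K.index * D.K'.index) =
      Nat.card W * (D.K ⊔ D.K').index := by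
    rw [← index_inf_mul_index_sup, ← mul_assoc, AddSubgroup.card_mul_index]
  have h2 : Nat.card (D.K ⊓ D.K' : AddSubgroup W) * (c ^ m * c ^ m) ≤
      Nat.card D.N₀.ker * (c ^ m * c ^ m) := by
    calc Nat.card (D.K ⊓ D.K' : AddSubgroup W) * (c ^ m * c ^ m)
        ≤ Nat.card (D.K ⊓ D.K' : AddSubgroup W) * (D.K.index * D.K'.index) :=
          Nat.mul_le_mul_left _ (Nat.mul_le_mul hK hK')
      _ = Nat.card W * (D.K ⊔ D.K').index := h1
      _ ≤ (c ^ m * c ^ m) * Nat.card D.N₀.ker := Nat.mul_le_mul hW D.index_sup_le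
      _ = Nat.card D.N₀.ker * (c ^ m * c ^ m) := mul_comm _ _
  exact Nat.le_of_mul_le_mul_right h2 (Nat.mul_pos (pow_pos hc0 m) (pow_pos hc0 m))

/-- elementwise form of (T2) -/
theorem exists_of_mem [Finite W] [Finite W₀] {x : W} (hx : x ∈ D.K) (hx' : x ∈ D.K') :
    ∃ y, D.N₀ y = 0 ∧ x = D.inc y := by
  have : x ∈ D.N₀.ker.map D.inc := by rw [D.inf_eq]; exact ⟨hx, hx'⟩
  obtain ⟨y, hy, rfl⟩ := this
  exact ⟨y, hy, rfl⟩

/-- the diamonds act trivially on `K ∩ K'` -/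
theorem δ_eq_of_mem [Finite W] [Finite W₀] {x : W} (hx : x ∈ D.K) (hx' : x ∈ D.K') : D.δ x = x := by
  obtain ⟨y, -, rfl⟩ := D.exists_of_mem hx hx'
  exact D.δ_inc y

theorem pr_pow_δ (j : ℕ) (x : W) : D.pr ((D.δ ^ j) x) = D.pr x := by
  induction j with
  | zero => simp
  | succ j ih =>
    rw [pow_succ']
    show D.pr (D.δ ((D.δ ^ j) x)) = _
    rw [D.pr_δ, ih]

theorem pr_inc (y : W₀) : D.pr (D.inc y) = p ^ e • y := by
  obtain ⟨x, rfl⟩ := D.pr_surj y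
  rw [D.inc_pr, map_sum, Finset.sum_congr rfl (fun j _ => D.pr_pow_δ j x), Finset.sum_const,
    Finset.card_range]

/-- **the denominator trick**: an element of `K ∩ K'` killed by `pr` is killed by `P`. -/
theorem smul_eq_zero_of_mem [Finite W] [Finite W₀] {x : W} (hx : x ∈ D.K) (hx' : x ∈ D.K')
    (h0 : D.pr x = 0) : p ^ e • x = 0 := by
  obtain ⟨y, -, rfl⟩ := D.exists_of_mem hx hx'
  rw [D.pr_inc] at h0
  rw [← map_nsmul, h0, map_zero]

end Data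

end Fermat.Agent.S43.LiftP.Cnt
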